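import Mathlib
import Fermat.Prelude.Def_AlgebraicCurve_DivisorPushPull
import Fermat.Agent.Lib.FF.Sep.Over

/-!
# Lib/FF/Sep (characteristic-free, separable case): the fundamental identity `∑_{w | v} e(w | v) = [F' : F]` (helper220)

`K` algebraically closed (any characteristic), `F'/F` a finite extension of function fields of
curves over `K`.  We prove the Prelude class `AlgebraicCurve.FundamentalIdentity K F F'`.
-/

set_option autoImplicit false
set_option linter.unusedSectionVars false
set_option linter.style.haveILetI false

namespace Fermat.Agent.Lib.FF.Sep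

open AlgebraicCurve IsDedekindDomain

attribute [local instance 10] algebraPlaceRing

variable {K F : Type*} [Field K] [Field F] [Algebra K F]
variable {F' : Type*} [Field F'] [Algebra K F'] [Algebra F F'] [IsScalarTower K F F']
variable [FiniteDimensional F F'] [Algebra.IsSeparable F F']

/-- `∑ e(q) = [F' : F]` over the primes of the integral closure of `O_v`. -/
theorem sum_ramificationIdx [IsAlgClosed K] {x : F'} (hx : Transcendental K x)
    [FiniteDimensional (IntermediateField.adjoin K {x}) F'] (v : Place K F)
    [Fintype ((IsLocalRing.maximalIdeal v.toValuationSubring).primesOver (overRing F' v))] :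
    ∑ q : (IsLocalRing.maximalIdeal v.toValuationSubring).primesOver (overRing F' v),
      (q.1.ramificationIdx v.toValuationSubring : ℤ) = (Module.finrank F F' : ℤ) := by
  have h := Ideal.sum_ramification_inertia_eq_finrank
    (IsLocalRing.maximalIdeal v.toValuationSubring) (overRing F' v)
  rw [IsFractionRing.finrank_eq v.toValuationSubring F (overRing F' v) F', ← h]
  push_cast
  refine Finset.sum_congr rfl fun q _ => ?_
  have h1 := inertiaDeg_eq_one hx (primeOfOver F' v q)
  rw [primeOfOver_asIdeal] at h1
  rw [h1]
  simp

/-- **Fundamental identity**: `∑_{w | v} e(w | v) = [F' : F]`. -/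
theorem sum_ramificationIndex_eq_finrank [IsAlgClosed K] {x : F'} (hx : Transcendental K x)
    [FiniteDimensional (IntermediateField.adjoin K {x}) F'] (v : Place K F)
    (s : Finset (Place K F')) (hs : ∀ w, w ∈ s ↔ w.restrict F = v) :
    ∑ w ∈ s, (w.ramificationIndex F : ℤ) = (Module.finrank F F' : ℤ) := by
  classical
  haveI : Finite ((IsLocalRing.maximalIdeal v.toValuationSubring).primesOver (overRing F' v)) :=
    Finite.of_injective (fun q => (⟨placeOf K (primeOfOver F' v q),
        (hs _).mpr (restrict_placeOf _)⟩ : s)) (by
      intro q q' h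
      have h1 : (placeOf K (primeOfOver F' v q) : Place K F') =
          placeOf K (primeOfOver F' v q') := congrArg Subtype.val h
      exact (primeOfOver_bijective F' v).1 (placeOf_injective h1))
  haveI := Fintype.ofFinite
    ((IsLocalRing.maximalIdeal v.toValuationSubring).primesOver (overRing F' v))
  rw [← sum_ramificationIdx hx v]
  symm
  refine Finset.sum_bij (fun q _ => placeOf K (primeOfOver F' v q)) ?_ ?_ ?_ ?_
  · intro q _
    exact (hs _).mpr (restrict_placeOf _)
  · intro q _ q' _ h
    exact (primeOfOver_bijective F' v).1 (placeOf_injective h)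
  · intro w hw
    obtain ⟨q, hq⟩ := exists_placeOf_eq ((hs w).mp hw)
    obtain ⟨q', rfl⟩ := (primeOfOver_bijective F' v).2 q
    exact ⟨q', Finset.mem_univ _, hq⟩
  · intro q _
    rw [ramificationIndex_placeOf, primeOfOver_asIdeal]

/-- **(B)** The Prelude's `FundamentalIdentity` for a finite extension of function fields of
curves over an algebraically closed field (any characteristic; `F'/F` separable). -/
theorem fundamentalIdentity [IsAlgClosed K] [HasPrincipalDivisors K F'] {x : F'}
    (hx : Transcendental K x) [FiniteDimensional (IntermediateField.adjoin K {x}) F'] :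
    FundamentalIdentity K F F' := by
  refine ⟨fun v => ?_⟩
  have hsum := sum_ramificationIndex_eq_finrank hx v (v.fiber F') (fun w => Place.mem_fiber)
  have hdegw : ∀ w : Place K F', w.deg = 1 := fun w => Fermat.Agent.S24.FF.deg_eq_one w hx
  have hne : (v.fiber F').Nonempty := by
    by_contra hempty
    rw [Finset.not_nonempty_iff_eq_empty] at hempty
    rw [hempty, Finset.sum_empty] at hsum
    have : 0 < Module.finrank F F' := Module.finrank_pos
    omega
  obtain ⟨w₀, hw₀⟩ := hne
  have hdegv : v.deg = 1 := by
    have h := w₀.deg_restrict_mul_inertiaDeg (F := F)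
    rw [Place.mem_fiber.mp hw₀, hdegw w₀] at h
    exact Nat.eq_one_of_mul_eq_one_right h
  rw [hdegv]
  simp only [hdegw, Nat.cast_one, mul_one]
  exact hsum

end Fermat.Agent.Lib.FF.Sep
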