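import Mathlib

/-!
# Lib/FF/Sep: relative norm of a prime with trivial residue extension (helper220)

Mathlib-only.  `S/R` a finite torsion-free extension of Dedekind domains, `p` a nonzero maximal
ideal of `R` such that every prime of `S` over `p` has inertia degree one.  Then
`Ideal.relNorm R P = p` for every prime `P` over `p`.

Mathlib's `Ideal.relNorm_eq_pow_of_isMaximal` needs `PerfectField (FractionRing R)`; this version
has NO separability or perfectness hypothesis (it uses only multiplicativity of the relative norm,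
`relNorm_algebraMap` and `∑ e f = n`).
-/

set_option autoImplicit false

namespace Fermat.Agent.Lib.FF.Sep

open Ideal Module

variable {R S : Type*} [CommRing R] [IsDedekindDomain R] [CommRing S] [IsDedekindDomain S]
  [Algebra R S] [Module.Finite R S] [Module.IsTorsionFree R S]

theorem relNorm_eq_self_of_inertiaDeg_eq_one (p : Ideal R) [p.IsMaximal] (hp : p ≠ ⊥)
    (hf : ∀ Q ∈ p.primesOver S, Q.inertiaDeg R = 1)
    (P : Ideal S) [hPprime : P.IsPrime] [hPp : P.LiesOver p] : relNorm R P = p := by
  classical
  -- the exponents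
  have hex : ∀ Q : p.primesOver S, ∃ s : ℕ, relNorm R Q.1 = p ^ s := fun Q => by
    haveI := Q.2.1
    haveI := Q.2.2
    exact exists_relNorm_eq_pow_of_isPrime Q.1 p
  choose s hs using hex
  have hs1 : ∀ Q : p.primesOver S, 1 ≤ s Q := by
    intro Q
    by_contra hcon
    have h0 : s Q = 0 := by omega
    have h1 := hs Q
    rw [h0, pow_zero, Ideal.one_eq_top] at h1
    have h2 : relNorm R Q.1 ≤ comap (algebraMap R S) Q.1 := relNorm_le_comap R Q.1
    rw [h1, top_le_iff] at h2
    haveI := Q.2.1
    exact (Ideal.IsPrime.under R Q.1).ne_top h2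
  have he1 : ∀ Q : p.primesOver S, 1 ≤ Q.1.ramificationIdx R := fun Q => by
    haveI := Q.2.1
    exact Q.1.ramificationIdx_pos R
  -- the product formula
  have hprod : p ^ finrank R S = p ^ ∑ Q : p.primesOver S, s Q * Q.1.ramificationIdx R := by
    rw [← relNorm_algebraMap S p, Ideal.map_algebraMap_eq_finsetProd_pow hp, map_prod,
      ← Finset.prod_pow_eq_pow_sum, ← Finset.prod_set_coe]
    refine Finset.prod_congr rfl fun Q _ => ?_
    rw [map_pow, hs Q, ← pow_mul]
  have hpne : p ≠ ⊤ := IsMaximal.ne_top inferInstance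
  have hinj : Function.Injective (fun n : ℕ => p ^ n) := by
    refine (IsLeftCancelMulZero.mul_left_cancel_of_ne_zero (by rwa [Ideal.zero_eq_bot])).pow_injective ?_
    rwa [Ne, Ideal.one_eq_top]
  have hsum1 : finrank R S = ∑ Q : p.primesOver S, s Q * Q.1.ramificationIdx R := hinj hprod
  have hsum2 : ∑ Q : p.primesOver S, Q.1.ramificationIdx R = finrank R S := by
    rw [← Ideal.sum_ramification_inertia_eq_finrank p S]
    refine Finset.sum_congr rfl fun Q _ => ?_
    rw [hf Q.1 Q.2, mul_one]
  -- all exponents are one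
  have hall : ∀ Q : p.primesOver S, s Q = 1 := by
    by_contra hcon
    rw [not_forall] at hcon
    obtain ⟨Q₀, hQ₀⟩ := hcon
    have hlt : ∑ Q : p.primesOver S, Q.1.ramificationIdx R <
        ∑ Q : p.primesOver S, s Q * Q.1.ramificationIdx R := by
      refine Finset.sum_lt_sum (fun Q _ => ?_) ⟨Q₀, Finset.mem_univ _, ?_⟩
      · exact Nat.le_mul_of_pos_left _ (hs1 Q)
      · have h2 : 2 ≤ s Q₀ := by
          have := hs1 Q₀
          omega
        have := he1 Q₀
        nlinarith
    omega
  have := hs ⟨P, hPprime, hPp⟩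
  rw [hall, pow_one] at this
  exact this

end Fermat.Agent.Lib.FF.Sep
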