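import Mathlib
import Fermat.Prelude.Def_AlgebraicCurve_DivisorPushPull
import Fermat.Agent.Lib.FF.Sep.Fundamental
import Fermat.Agent.Lib.FF.Sep.RelNorm

/-!
# Lib/FF/Sep (characteristic-free, separable case): the norm formula `∑_{w | v} ord_w(f) = ord_v(N_{F'/F} f)` (helper220)

`K` algebraically closed (any characteristic), `F'/F` a finite extension of function fields of
curves over `K`.  We prove the Prelude's `AlgebraicCurve.Divisor.PushforwardNormFormula K F F'`.
-/

set_option autoImplicit false
set_option linter.unusedSectionVars false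
set_option linter.style.haveILetI false

namespace Fermat.Agent.Lib.FF.Sep

open AlgebraicCurve IsDedekindDomain UniqueFactorizationMonoid

attribute [local instance 10] algebraPlaceRing

variable {K F : Type*} [Field K] [Field F] [Algebra K F]
variable {F' : Type*} [Field F'] [Algebra K F'] [Algebra F F'] [IsScalarTower K F F']
variable [FiniteDimensional F F'] [Algebra.IsSeparable F F']

section count

variable (v : Place K F)

/-- The order at the place of `q` of an element of the integral closure of `O_v` is the
multiplicity of `q` in the factorisation of the principal ideal. -/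
theorem ord_placeOf_eq_count (q : HeightOneSpectrum (overRing F' v)) {x : overRing F' v}
    (hx : x ≠ 0) :
    (placeOf K q : Place K F').ord (algebraMap (overRing F' v) F' x) =
      ((normalizedFactors (Ideal.span {x})).count q.asIdeal : ℤ) := by
  classical
  rw [ord_placeOf]
  have h1 : q.valuation F' (algebraMap (overRing F' v) F' x) = q.intValuation x :=
    q.valuation_of_algebraMap x
  rw [h1, q.intValuation_eq_exp_neg_multiplicity hx]
  have hI : Ideal.span {x} ≠ ⊥ := by rwa [Ne, Ideal.span_singleton_eq_bot]
  have h2 := emultiplicity_eq_count_normalizedFactors q.prime.irreducible hI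
  rw [normalize_eq] at h2
  rw [multiplicity_eq_of_emultiplicity_eq_some h2]
  simp

theorem sum_count_eq_card [Fintype (HeightOneSpectrum (overRing F' v))]
    {I : Ideal (overRing F' v)} (hI : I ≠ ⊥) :
    ∑ q : HeightOneSpectrum (overRing F' v), (normalizedFactors I).count q.asIdeal =
      Multiset.card (normalizedFactors I) := by
  classical
  rw [← Multiset.toFinset_sum_count_eq]
  have hinj : Set.InjOn (HeightOneSpectrum.asIdeal (R := overRing F' v))
      (Finset.univ : Finset (HeightOneSpectrum (overRing F' v))) :=
    fun q _ q' _ h => HeightOneSpectrum.ext h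
  rw [← Finset.sum_image (f := fun a => (normalizedFactors I).count a) hinj]
  symm
  refine Finset.sum_subset ?_ ?_
  · intro P hP
    rw [Multiset.mem_toFinset, Ideal.mem_normalizedFactors_iff hI] at hP
    rw [Finset.mem_image]
    refine ⟨⟨P, hP.1, fun h => hI ?_⟩, Finset.mem_univ _, rfl⟩
    rw [eq_bot_iff, ← h]
    exact hP.2
  · intro P _ hP
    rw [Multiset.mem_toFinset] at hP
    exact Multiset.count_eq_zero_of_notMem hP

/-- If `(y) = 𝔪_v ^ m` then `ord_v y = m`. -/
theorem ord_eq_of_span_eq_pow {y : v.toValuationSubring} {m : ℕ}
    (h : Ideal.span {y} = (IsLocalRing.maximalIdeal v.toValuationSubring) ^ m) :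
    v.ord (y : F) = m := by
  obtain ⟨π, hπ⟩ := IsDiscreteValuationRing.exists_irreducible v.toValuationSubring
  rw [hπ.maximalIdeal_eq, Ideal.span_singleton_pow, Ideal.span_singleton_eq_span_singleton] at h
  obtain ⟨u, hu⟩ := h.symm
  have : (y : F) = ((u : v.toValuationSubring) : F) * ((π : F) ^ (m : ℤ)) := by
    rw [← hu, zpow_natCast, mul_comm]
    push_cast
    rfl
  rw [this, v.ord_unit_smul_zpow u hπ]

end count

section relNorm

variable [IsAlgClosed K] {x' : F'} (hx' : Transcendental K x')
  [FiniteDimensional (IntermediateField.adjoin K {x'}) F'] (v : Place K F)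

include hx'

/-- The relative norm of a nonzero ideal of the integral closure of `O_v` is the power of the
maximal ideal of `O_v` given by the number of prime factors (all residue degrees are one). -/
theorem relNorm_eq_pow_card {I : Ideal (overRing F' v)} (hI : I ≠ ⊥) :
    Ideal.relNorm v.toValuationSubring I =
      (IsLocalRing.maximalIdeal v.toValuationSubring) ^ Multiset.card (normalizedFactors I) := by
  classical
  conv_lhs => rw [← Ideal.prod_normalizedFactors_eq_self hI]
  rw [map_multiset_prod]
  have hmap : Multiset.map (Ideal.relNorm v.toValuationSubring) (normalizedFactors I) =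
      Multiset.map (fun _ => IsLocalRing.maximalIdeal v.toValuationSubring)
        (normalizedFactors I) := by
    refine Multiset.map_congr rfl fun P hP => ?_
    rw [Ideal.mem_normalizedFactors_iff hI] at hP
    have hP0 : P ≠ ⊥ := fun h => hI (by rw [eq_bot_iff, ← h]; exact hP.2)
    let q : HeightOneSpectrum (overRing F' v) := ⟨P, hP.1, hP0⟩
    haveI : P.LiesOver (IsLocalRing.maximalIdeal v.toValuationSubring) :=
      liesOver_maximalIdeal F' v q
    haveI := hP.1
    exact relNorm_eq_self_of_inertiaDeg_eq_one (IsLocalRing.maximalIdeal v.toValuationSubring)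
      (IsDiscreteValuationRing.not_a_field v.toValuationSubring)
      (fun Q hQ => inertiaDeg_eq_one hx' (primeOfOver F' v ⟨Q, hQ⟩)) P
  rw [hmap, Multiset.map_const', Multiset.prod_replicate]

/-- **Norm formula, integral case.** -/
theorem ord_norm_eq_sum_of_integral [Fintype (HeightOneSpectrum (overRing F' v))]
    {x : overRing F' v} (hx : x ≠ 0) :
    v.ord (Algebra.norm F (algebraMap (overRing F' v) F' x)) =
      ∑ q : HeightOneSpectrum (overRing F' v),
        (placeOf K q : Place K F').ord (algebraMap (overRing F' v) F' x) := by
  classical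
  have hI : Ideal.span {x} ≠ ⊥ := by rwa [Ne, Ideal.span_singleton_eq_bot]
  have h1 := relNorm_eq_pow_card hx' v hI
  rw [Ideal.relNorm_singleton] at h1
  have h2 := ord_eq_of_span_eq_pow v h1
  have h3 : ((Algebra.intNorm v.toValuationSubring (overRing F' v) x : v.toValuationSubring) : F)
      = Algebra.norm F (algebraMap (overRing F' v) F' x) :=
    Algebra.algebraMap_intNorm (A := v.toValuationSubring) (K := F) (L := F')
      (B := overRing F' v) x
  rw [← h3, h2, ← sum_count_eq_card v hI]
  push_cast
  exact Finset.sum_congr rfl fun q _ => (ord_placeOf_eq_count v q hx).symm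

/-- **Norm formula over a place**, in terms of the primes of the integral closure of `O_v`. -/
theorem ord_norm_eq_sum [Fintype (HeightOneSpectrum (overRing F' v))] {f : F'} (hf : f ≠ 0) :
    v.ord (Algebra.norm F f) =
      ∑ q : HeightOneSpectrum (overRing F' v), (placeOf K q : Place K F').ord f := by
  obtain ⟨a, b, hb, hab⟩ := IsFractionRing.div_surjective (A := overRing F' v) f
  have hb0 : b ≠ 0 := nonZeroDivisors.ne_zero hb
  have hbF : algebraMap (overRing F' v) F' b ≠ 0 :=
    (map_ne_zero_iff _ (IsFractionRing.injective (overRing F' v) F')).mpr hb0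
  have hfb : algebraMap (overRing F' v) F' a = f * algebraMap (overRing F' v) F' b := by
    rw [← hab, div_mul_cancel₀ _ hbF]
  have haF : algebraMap (overRing F' v) F' a ≠ 0 := by
    rw [hfb]
    exact mul_ne_zero hf hbF
  have ha0 : a ≠ 0 := fun h => haF (by rw [h, map_zero])
  have hNf : Algebra.norm F f ≠ 0 := Algebra.norm_ne_zero_iff.mpr hf
  have hNb : Algebra.norm F (algebraMap (overRing F' v) F' b) ≠ 0 :=
    Algebra.norm_ne_zero_iff.mpr hbF
  have h1 := ord_norm_eq_sum_of_integral hx' v ha0
  have h2 := ord_norm_eq_sum_of_integral hx' v hb0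
  rw [hfb, map_mul, v.ord_mul hNf hNb, h2] at h1
  have h3 : ∀ q : HeightOneSpectrum (overRing F' v),
      (placeOf K q : Place K F').ord (f * algebraMap (overRing F' v) F' b) =
        (placeOf K q : Place K F').ord f +
          (placeOf K q : Place K F').ord (algebraMap (overRing F' v) F' b) :=
    fun q => Place.ord_mul _ hf hbF
  simp_rw [h3, Finset.sum_add_distrib] at h1
  linarith

/-- Over an algebraically closed constant field the Prelude's inertia degrees are all one. -/
theorem prelude_inertiaDeg_eq_one (w : Place K F') : w.inertiaDeg F = 1 := by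
  have h := w.deg_restrict_mul_inertiaDeg (F := F)
  rw [Fermat.Agent.S24.FF.deg_eq_one w hx'] at h
  exact Nat.eq_one_of_mul_eq_one_left h

/-- **(C)** The Prelude's `PushforwardNormFormula` for a finite extension of function fields of
curves over an algebraically closed field (any characteristic; `F'/F` separable). -/
theorem pushforwardNormFormula : Divisor.PushforwardNormFormula K F F' := by
  classical
  intro f hf D hD v
  rw [Divisor.pushforward_apply]
  haveI : Fintype ((IsLocalRing.maximalIdeal v.toValuationSubring).primesOver (overRing F' v)) :=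
    (Algebra.QuasiFinite.finite_primesOver _).fintype
  haveI : Fintype (HeightOneSpectrum (overRing F' v)) :=
    Fintype.ofBijective _ (primeOfOver_bijective F' v)
  rw [ord_norm_eq_sum hx' v hf, ← Finset.sum_filter]
  symm
  refine Finset.sum_bij_ne_zero (fun q _ _ => (placeOf K q : Place K F')) ?_ ?_ ?_ ?_
  · intro q _ hq
    rw [Finset.mem_filter, Finsupp.mem_support_iff, hD]
    exact ⟨hq, restrict_placeOf q⟩
  · intro q _ _ q' _ _ h
    exact placeOf_injective h
  · intro w hw hw0
    rw [Finset.mem_filter, Finsupp.mem_support_iff] at hw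
    obtain ⟨q, rfl⟩ := exists_placeOf_eq hw.2
    refine ⟨q, Finset.mem_univ _, ?_, rfl⟩
    rw [← hD]
    exact hw.1
  · intro q _ _
    rw [hD, prelude_inertiaDeg_eq_one hx', Nat.cast_one, mul_one]

/-- **Norm formula, finset form**: if `s` is the set of places of `F'` over `v`, then
`∑_{w ∈ s} ord_w f = ord_v (N_{F'/F} f)`. -/
theorem sum_ord_eq_ord_norm (s : Finset (Place K F')) (hs : ∀ w, w ∈ s ↔ w.restrict F = v)
    {f : F'} (hf : f ≠ 0) : ∑ w ∈ s, w.ord f = v.ord (Algebra.norm F f) := by
  classical
  haveI : Fintype ((IsLocalRing.maximalIdeal v.toValuationSubring).primesOver (overRing F' v)) :=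
    (Algebra.QuasiFinite.finite_primesOver _).fintype
  haveI : Fintype (HeightOneSpectrum (overRing F' v)) :=
    Fintype.ofBijective _ (primeOfOver_bijective F' v)
  rw [ord_norm_eq_sum hx' v hf]
  symm
  refine Finset.sum_bij (fun q _ => (placeOf K q : Place K F')) ?_ ?_ ?_ ?_
  · intro q _
    exact (hs _).mpr (restrict_placeOf q)
  · intro q _ q' _ h
    exact placeOf_injective h
  · intro w hw
    obtain ⟨q, rfl⟩ := exists_placeOf_eq ((hs w).mp hw)
    exact ⟨q, Finset.mem_univ _, rfl⟩
  · intro q _
    rfl

/-- The set of places over `v` is finite (no `HasPrincipalDivisors` needed). -/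
theorem finite_setOf_restrict_eq : {w : Place K F' | w.restrict F = v}.Finite := by
  classical
  haveI : Fintype ((IsLocalRing.maximalIdeal v.toValuationSubring).primesOver (overRing F' v)) :=
    (Algebra.QuasiFinite.finite_primesOver _).fintype
  haveI : Fintype (HeightOneSpectrum (overRing F' v)) :=
    Fintype.ofBijective _ (primeOfOver_bijective F' v)
  refine (Set.finite_range (fun q : HeightOneSpectrum (overRing F' v) =>
    (placeOf K q : Place K F'))).subset ?_
  intro w hw
  obtain ⟨q, rfl⟩ := exists_placeOf_eq (v := v) hw
  exact ⟨q, rfl⟩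

end relNorm

end Fermat.Agent.Lib.FF.Sep
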